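import Fermat.Agent.Row38.SwapTrace
import Fermat.Agent.EllLocal.Supersingular
import Fermat.Agent.Engine.Goals

/-!
# Irreducibility on index two subgroups for a semistable curve, `p` odd

`Engine.Residual` holds for `p ≥ 5`.  The supersingular case is valid for every odd `p`: inertia at
`p` acts through the fundamental character of level two, whose value group is too large to leave a
subgroup of index two.
-/

set_option autoImplicit false

open WeierstrassCurve WeierstrassCurve.Affine Fermat.Agent.BigImage
open scoped WeierstrassCurve.Affine TensorProduct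

noncomputable section

namespace Fermat.Agent.Row38

local notation "Ω" => AlgebraicClosure ℚ
local notation "G_ℚ" => (AlgebraicClosure ℚ) ≃ₐ[ℚ] (AlgebraicClosure ℚ)

attribute [local instance] EllLocal.instDecEqKA

variable {W : WeierstrassCurve ℤ} {p : ℕ} [hp : Fact p.Prime]

local notation "WE" => (WeierstrassCurve.map W (Int.castRingHom ℚ))
local notation "ρp" => Affine.Point.galoisRepModuleEnd (K := AlgebraicClosure ℚ) ℚ
  (W.map (Int.castRingHom ℚ)) p

variable [(W.map (Int.castRingHom ℚ)).IsElliptic]

/-- A unit of `𝔽_p` up to sign has `(p - 1)`-st power one. -/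
theorem neg_pow_sub_one {d : ZMod p} (hd : d ≠ 0) : (-d) ^ (p - 1) = 1 :=
  ZMod.pow_card_sub_one_eq_one (neg_ne_zero.2 hd)

/-- Semistable, `p` odd, `E[p]` irreducible, good supersingular at `p`: irreducible on every
index two subgroup. -/
theorem supersingular_index_two_irreducible (hΔ0 : W.Δ ≠ 0) (hss : W.IsSemistableModel)
    (hp2' : p ≠ 2) (hirr : Affine.Point.GaloisRepIsIrreducible (K := Ω) ℚ WE p)
    (hsup : EllLocal.IsGoodSupersingular W p)
    {hcard : Nat.card (Submodule.torsionBy ℤ (WE⁄Ω).Point p) = p ^ 2}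
    {hker : GaloisFactorsThroughFiniteLevel ρp}
    (K : Type) [Field K] [Algebra (ZMod p) K] (G : Subgroup G_ℚ) (hG : G.index = 2)
    (V : Submodule K (((WE).residualGaloisRepOf p hcard hker).baseChange K).V)
    (hV : ∀ σ ∈ G, ∀ x ∈ V, (((WE).residualGaloisRepOf p hcard hker).baseChange K).ρ σ x ∈ V) :
    V = ⊥ ∨ V = ⊤ := by
  classical
  by_contra hcon
  push Not at hcon
  have hpp : p.Prime := hp.out
  have hp2 : Odd p := hpp.odd_of_ne_two hp2'
  have h2 : (2 : ZMod p) ≠ 0 := two_ne_zero_zmod hp2'
  have hirr' : ((WE).residualGaloisRepOf p hcard hker).IsIrreducible := residual_isIrreducible hirr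
  obtain ⟨b, hb0, hb1⟩ := exists_involution_basis ((WE).residualGaloisRepOf p hcard hker).finrank_eq h2
    (f := ((WE).residualGaloisRepOf p hcard hker).ρ complexConjugation) (fun v => by
      rw [← Module.End.mul_apply, ← map_mul, complexConjugation_mul_self, map_one,
        Module.End.one_apply])
    (det_involution WE p complexConjugation_mul_self complexConjugation_ne_one)
  have habs := baseChange_irreducible_of_eigenbasis K hirr' b hb0 hb1
    (fun h => h2 (by linear_combination h))
  have hswap := fun {σ : G_ℚ} (hσ : σ ∉ G) =>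
    (swap_of_not_mem (ρ := ((WE).residualGaloisRepOf p hcard hker).ρ) ((WE).residualGaloisRepOf p hcard hker).finrank_eq habs G hG V hV hcon.1 hcon.2 hσ).1
  -- outside `G` the `2 (p - 1)`-st power is trivial
  have hpow : ∀ σ ∉ G, ((WE).residualGaloisRepOf p hcard hker).ρ (σ ^ (2 * (p - 1))) = 1 := fun σ hσ => by
    have h := mul_self_of_not_mem (ρ := ((WE).residualGaloisRepOf p hcard hker).ρ) ((WE).residualGaloisRepOf p hcard hker).finrank_eq habs G hG V hV hcon.1 hcon.2 hσ
    have hd : LinearMap.det (((WE).residualGaloisRepOf p hcard hker).ρ σ) ≠ 0 :=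
      ((LinearMap.isUnit_iff_isUnit_det _).1 ((Group.isUnit σ).map ((WE).residualGaloisRepOf p hcard hker).ρ)).ne_zero
    rw [map_pow, pow_mul, sq, h, smul_pow, one_pow, neg_pow_sub_one hd, one_smul]
  have := G.normal_of_index_eq_two hG
  have htop : G = ⊤ := by
    refine FreyReducible.subgroup_eq_top_of_inertia_le G ?_ fun q hq => ?_
    · obtain ⟨L, hL, hL'⟩ := hker
      refine ⟨L, hL, fun g hg => by_contra fun hgG => hswap hgG ?_⟩
      exact hL' g ((IntermediateField.mem_fixingSubgroup_iff L g).1 hg)
    obtain ⟨A, hA⟩ := Frobenius.exists_liesOverPrime Ω hq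
    refine ⟨A, hA, fun σ hσ => by_contra fun hσG => ?_⟩
    by_cases hqp : q = p
    · subst hqp
      obtain ⟨ϖ, hϖ⟩ := IsAlgClosed.exists_pow_nat_eq (q : Ω) (EllLocal.sq_sub_one_pos (p := q))
      have hϖ0 := EllLocal.ne_zero_of_pow hq EllLocal.not_dvd_sq_sub_one hϖ
      have := EllLocal.isAlgClosed_residueField A
      have := EllLocal.charP_kA hq hA
      have : NeZero ((q ^ 2 - 1 : ℕ) : EllLocal.kA A) := ⟨by
        rw [Ne, CharP.cast_eq_zero_iff (EllLocal.kA A) q]; exact EllLocal.not_dvd_sq_sub_one⟩
      obtain ⟨ξ, hξ⟩ := HasEnoughRootsOfUnity.exists_primitiveRoot (EllLocal.kA A) (q ^ 2 - 1)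
      obtain ⟨τ, hτ, hτξ⟩ :=
        EllLocal.exists_kummerRes_eq hq hA EllLocal.not_dvd_sq_sub_one hϖ hξ.pow_eq_one
      have hχ : ∀ s ∈ A.inertiaSubgroupIn ℚ, ∀ n : ℕ,
          EllLocal.kummerRes A ϖ (s ^ n) = EllLocal.kummerRes A ϖ s ^ n := fun s hs n => by
        induction n with
        | zero => rw [pow_zero, pow_zero, EllLocal.kummerRes_one hϖ0]
        | succ n ih => rw [pow_succ, pow_succ, EllLocal.kummerRes_mul (pow_mem hs n) hs hϖ0, ih]
      have hout : ∀ s ∈ A.inertiaSubgroupIn ℚ, s ∉ G →
          EllLocal.kummerRes A ϖ s ^ (2 * (q - 1)) = 1 := fun s hs hsG => by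
        rw [← hχ s hs]
        refine (EllLocal.inertia_smul_eq_self_iff hA hp2 hsup hϖ (pow_mem hs _)).1 fun P => ?_
        exact LinearMap.congr_fun (hpow s hsG) P
      have hne : ξ ^ (2 * (q - 1)) ≠ 1 := fun h => by
        have h4 : 3 ≤ q := by
          have := hpp.two_le
          omega
        have h1 := Nat.le_of_dvd (by omega) (hξ.dvd_of_pow_eq_one _ h)
        have h3 : 3 * q ≤ q ^ 2 := by rw [pow_two]; exact Nat.mul_le_mul_right q h4
        omega
      have hτG : τ ∈ G := by_contra fun h => hne (hτξ ▸ hout τ hτ h)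
      have hστG : σ * τ ∉ G := fun h => hσG (by simpa using mul_mem h (inv_mem hτG))
      have h1 := hout _ (mul_mem hσ hτ) hστG
      rw [EllLocal.kummerRes_mul hσ hτ hϖ0, mul_pow, hout σ hσ hσG, one_mul, hτξ] at h1
      exact hne h1
    · have hq' : ¬ q ∣ p := fun h => hqp ((Nat.prime_dvd_prime_iff_eq hq hp.out).1 h)
      refine hswap hσG ?_
      by_cases hbad : (q : ℤ) ∣ W.Δ
      · by_contra hne
        refine (irreducible_index_two_of_transvection (ρ := ((WE).residualGaloisRepOf p hcard hker)) hirr' h2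
          (u := σ) (fun v => Subtype.ext ?_) hne K G hG V hV).elim hcon.1 hcon.2
        exact MultRed.inertia_unipotent hq hA hΔ0 hbad (hss q hq hbad) hσ hq'
          (by rw [← natCast_zsmul]; exact (Submodule.mem_torsionBy_iff _ _).1 v.2)
      · exact LinearMap.ext fun v => Subtype.ext (MultRed.inertia_smul_eq_of_good hq hA hbad hσ
          hq' (by rw [← natCast_zsmul]; exact (Submodule.mem_torsionBy_iff _ _).1 v.2))
  rw [htop, Subgroup.index_top] at hG
  exact absurd hG (by decide)

omit [(W.map (Int.castRingHom ℚ)).IsElliptic] in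
/-- The hypotheses of the engine for a semistable curve with irreducible `E[p]`, `p ≥ 5`. -/
theorem residual_of_semistable (hΔ0 : W.Δ ≠ 0) (hss : W.IsSemistableModel) (hp5 : 5 ≤ p)
    (hirr : W.ModRepIsIrreducible p) : Engine.Residual W p where
  five_le := hp5
  delta_ne_zero := hΔ0
  semistable := hss
  irreducible := hirr
  indexTwo := by
    intro hcard hker K _ _ G hG V hV
    have := isElliptic_of_Δ_ne_zero hΔ0
    by_cases hsup : EllLocal.IsGoodSupersingular W p
    · exact supersingular_index_two_irreducible hΔ0 hss (by omega) hirr hsup K G hG V hV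
    refine semistable_index_two_irreducible hΔ0 hss hp5 hirr (fun A hA σ hσ => ?_) K G hG V hV
    by_cases hgood : W.IsGoodPrimeFor p
    · refine det_inertia_sub_one_of_ordinary hgood hA ((EllLocal.ordinaryRedAt_iff hA hgood).2 ?_) hσ
      exact by_contra fun h => hsup ⟨hgood, h⟩
    · exact det_inertia_sub_one_of_mult hΔ0 (not_not.1 hgood) (hss p Fact.out (not_not.1 hgood))
        hA hσ

end Fermat.Agent.Row38
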