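import Fermat.Agent.Row38.IndexTwo
import Fermat.Agent.MazurPrinciple.Principle
import Fermat.Agent.Engine.Top.LoweringFinal
import Fermat.Agent.General.Residual3
import Fermat.Prelude.Def_GaloisRep_Residual

/-!
# Ribet's lowering for a semistable curve at every odd prime

A prime `q ≠ p` at which `W[p]` is unramified leaves a squarefree level (S38), given lowering at
good residual levels at `3` and that `p` leaves the level when the reduction at `p` is good (S40).
-/

set_option autoImplicit false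

open WeierstrassCurve WeierstrassCurve.Affine WeierstrassCurve.Affine.Point

noncomputable section

namespace Fermat.Agent.Row38

/-- `p` leaves a squarefree level when the reduction at `p` is good (statement S40). -/
def GoodPrimeLeaves (W : WeierstrassCurve ℤ) (p : ℕ) : Prop :=
  ∀ M : ℕ, W.IsGoodPrimeFor p → p ∣ M → Squarefree M →
    W.IsResiduallyModularOfLevel p M → W.IsResiduallyModularOfLevel p (M / p)

variable {p : ℕ} [Fact p.Prime] {W : WeierstrassCurve ℤ}

/-- Lowering at good residual levels for `p ≥ 5`. -/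
theorem lowering_good_of_five_le (hp5 : 5 ≤ p) : General.Lowering p := by
  intro W M q hΔ hss hirr hq hqp hqM hunr hlev
  obtain ⟨hM0, hsq, hgood, hmod⟩ := hlev
  obtain ⟨M', hM', hqM', hmod'⟩ := Engine.exists_level_without MazurPrinciple.mazurPrinciple
    Engine.loweringAtOneModP p W (residual_of_semistable hΔ hss hp5 hirr) q hq hqp hunr M hqM hsq
    (fun hpM => Or.inl fun hg => hgood hg hpM) hmod
  exact ⟨M', hM', hqM', Nat.pos_of_dvd_of_pos hM' hM0, hsq.squarefree_of_dvd hM',
    fun hg hd => hgood hg (hd.trans hM'), hmod'⟩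

/-- S38 from lowering at good residual levels and the removal of `p`. -/
theorem lowering_of (hlow : General.Lowering p) (hgoodp : GoodPrimeLeaves W p) (hΔ : W.Δ ≠ 0)
    (hss : W.IsSemistableModel) (hirr : W.ModRepIsIrreducible p) {M q : ℕ} (hq : q.Prime)
    (hqp : q ≠ p) (hqM : q ∣ M) (hM : Squarefree M) (hunr : Engine.Unramified W p q)
    (hmod : W.IsResiduallyModularOfLevel p M) : W.IsResiduallyModularOfLevel p (M / q) := by
  have hpp : p.Prime := Fact.out
  obtain ⟨L, hLM, hqL, hlev⟩ : ∃ L : ℕ, L ∣ M ∧ q ∣ L ∧ General.GoodResidualLevel W p L := by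
    by_cases h : W.IsGoodPrimeFor p ∧ p ∣ M
    · obtain ⟨hgood, hpM⟩ := h
      obtain ⟨hd, hsq, hnd, -⟩ := Engine.div_prime_facts hpp hpM hM
      refine ⟨M / p, hd, ?_, Nat.pos_of_ne_zero hsq.ne_zero, hsq, fun _ => hnd,
        hgoodp M hgood hpM hM hmod⟩
      rw [← Nat.mul_div_cancel' hpM] at hqM
      exact (hq.dvd_mul.1 hqM).resolve_left fun h' =>
        hqp ((Nat.prime_dvd_prime_iff_eq hq hpp).1 h')
    · exact ⟨M, dvd_rfl, hqM, Nat.pos_of_ne_zero hM.ne_zero, hM, fun hg hd => h ⟨hg, hd⟩, hmod⟩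
  obtain ⟨M', hM', hqM', -, -, -, hmod'⟩ := hlow W L q hΔ hss hirr hq hqp hqL hunr hlev
  have : NeZero (M / q) := ⟨(Engine.div_prime_facts hq hqM hM).2.1.ne_zero⟩
  refine Engine.Top.isResiduallyModularOfLevel_of_dvd hΔ ?_ hmod'
  refine ((hq.coprime_iff_not_dvd.2 hqM').symm).dvd_of_dvd_mul_right ?_
  rw [Nat.div_mul_cancel hqM]
  exact hM'.trans hLM

/-- **Statement S38**, from lowering at `3` and the removal of `p`. -/
theorem s38_of (p : ℕ) [Fact p.Prime] (hp2 : p ≠ 2) (hlow3 : General.Lowering 3)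
    (W : WeierstrassCurve ℤ) (hgoodp : GoodPrimeLeaves W p) (hΔ : W.Δ ≠ 0)
    (hW : W.IsSemistableModel)
    (hcard : Nat.card (Submodule.torsionBy ℤ
      ((W.map (Int.castRingHom ℚ))⁄(AlgebraicClosure ℚ)).Point p) = p ^ 2)
    (hker : GaloisFactorsThroughFiniteLevel
      (galoisRepModuleEnd (K := AlgebraicClosure ℚ) ℚ (W.map (Int.castRingHom ℚ)) p))
    (hirr : W.ModRepIsIrreducible p) (M q : ℕ) (hq : q.Prime) (hqp : q ≠ p)
    (hqM : q ∣ M) (hM : Squarefree M)
    (hunr : ((W.map (Int.castRingHom ℚ)).residualGaloisRepOf p hcard hker).IsUnramifiedAt q)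
    (hres : W.IsResiduallyModularOfLevel p M) : W.IsResiduallyModularOfLevel p (M / q) := by
  have hlow : General.Lowering p := by
    by_cases hp5 : 5 ≤ p
    · exact lowering_good_of_five_le hp5
    have hp3 : p = 3 := by
      have h2 := (Fact.out : p.Prime).two_le
      have h4 : p ≠ 4 := fun h => absurd (h ▸ (Fact.out : p.Prime)) (by norm_num)
      omega
    subst hp3
    exact hlow3
  exact lowering_of hlow hgoodp hΔ hW hirr hq hqp hqM hM
    (fun A hA σ hσ x => LinearMap.congr_fun (hunr A hA σ hσ) x) hres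

end Fermat.Agent.Row38

end
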