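import Fermat.Agent.BigImage.IndexTwo
import Mathlib.LinearAlgebra.Matrix.Charpoly.Coeff

/-!
# An element outside an index two subgroup with an invariant line has trace zero
-/

set_option autoImplicit false

open scoped TensorProduct

noncomputable section

namespace Fermat.Agent.Row38

universe uk uK uV uG

variable {k : Type uk} [Field k] {V : Type uV} [AddCommGroup V] [Module k V] [Module.Finite k V]
  {G : Type uG} [Group G] {ρ : G →* Module.End k V} {K : Type uK} [Field K] [Algebra k K]

/-- Cayley–Hamilton in dimension two. -/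
theorem end_mul_self (hdim : Module.finrank k V = 2) (f : Module.End k V) :
    f * f = LinearMap.trace k V f • f - LinearMap.det f • 1 := by
  let b : Module.Basis (Fin 2) k V := (Module.finBasis k V).reindex (finCongr hdim)
  refine (LinearMap.toMatrix b b).injective ?_
  rw [map_sub, map_smul, map_smul, LinearMap.toMatrix_mul, LinearMap.toMatrix_one,
    LinearMap.trace_eq_matrix_trace k b f, ← LinearMap.det_toMatrix b f, Matrix.det_fin_two]
  ext i j
  fin_cases i <;> fin_cases j <;>
    simp [Matrix.mul_apply, Fin.sum_univ_two, Matrix.trace_fin_two] <;> ring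

/-- The square of an element outside `H` is the scalar `- det`. -/
theorem mul_self_of_not_mem (hdim : Module.finrank k V = 2)
    (habs : ∀ U : Submodule K (K ⊗[k] V),
      (∀ σ : G, ∀ x ∈ U, (ρ σ).baseChange K x ∈ U) → U = ⊥ ∨ U = ⊤)
    (H : Subgroup G) (hH : H.index = 2) (W : Submodule K (K ⊗[k] V))
    (hW : ∀ σ ∈ H, ∀ x ∈ W, (ρ σ).baseChange K x ∈ W) (hbot : W ≠ ⊥) (htop : W ≠ ⊤)
    {σ : G} (hσ : σ ∉ H) : ρ σ * ρ σ = -LinearMap.det (ρ σ) • 1 := by
  have ht : LinearMap.trace k V (ρ σ) = 0 := by
    by_contra ht
    refine (habs W fun g x hx => ?_).elim hbot htop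
    have hσW : ∀ y ∈ W, (ρ σ).baseChange K y ∈ W := fun y hy => by
      have h2 := hW _ (Subgroup.mul_self_mem_of_index_two hH σ) y hy
      rw [map_mul, end_mul_self hdim, LinearMap.baseChange_sub, LinearMap.baseChange_smul,
        LinearMap.baseChange_smul, LinearMap.baseChange_one, LinearMap.sub_apply,
        LinearMap.smul_apply, LinearMap.smul_apply, Module.End.one_apply] at h2
      have h3 := W.add_mem h2 (Submodule.smul_of_tower_mem W (LinearMap.det (ρ σ)) hy)
      rw [sub_add_cancel] at h3
      have h4 := Submodule.smul_of_tower_mem W (LinearMap.trace k V (ρ σ))⁻¹ h3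
      rwa [smul_smul, inv_mul_cancel₀ ht, one_smul] at h4
    by_cases hg : g ∈ H
    · exact hW g hg x hx
    · have hgH : σ⁻¹ * g ∈ H := by
        rw [Subgroup.mul_mem_iff_of_index_two hH, inv_mem_iff]
        exact iff_of_false hσ hg
      have := hσW _ (hW _ hgH x hx)
      rwa [← LinearMap.comp_apply, ← LinearMap.baseChange_comp, ← Module.End.mul_eq_comp,
        ← map_mul, mul_inv_cancel_left] at this
  rw [end_mul_self hdim, ht, zero_smul, zero_sub, neg_smul]

end Fermat.Agent.Row38
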